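/-
GATE-E / E8.3 LLQ, RISK-2 (the `(2,3)` circle, helper96 board 7255, RULING A9 7259), **A5 half**
(helper86): **torsion lifting at a good level `N` WITHOUT the frame condition `ℓ = 2 → 3 ∣ N`**,
by norm descent from the level `N·3`, and node A5 (`FP.AbHyp`) at `q = 2` for EVERY odd `N'`.

`GB/A/K2Gen/Bar.exists_lift_unit_bar` needs the good-reduction frame of `X₀(N)` at `ℓ`, which is
on main for `ℓ = 2` only when `3 ∣ N`.  `GB/A/Desc/LiftOdd` removes the twin condition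
`ℓ = 3 → 2 ∣ N` through the level `N·2` (degree `ψ(2) = 3`, so `m` must be prime to `3`: this is
one of the roots of `5 ≤ p`).  Here the same descent is run through the level `N·a`, `a` ANY
auxiliary factor prime to `ℓ`:

* `ū ∈ FresBar N A ⊆ FresBar (N·a) A` lifts to an `m`-divisible Gauss unit `u₂` of `F_{N·a}`;
* `v := N_{F_{N·a}/F_N} u₂` is `m`-divisible, a Gauss unit, `red v = ū ^ d`,
  `d = [FresBar (N·a) A : FresBar N A]` (the Gauss valuation is inert: `NormInstH`, which is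
  already generic in `a`);
* Bezout `gcd (d, m) = 1`.

For `a = 3`, `3 ∤ N`: `d = ψ(3) = 4` EXACTLY, prime to every odd `m` — in particular to `m = 3`.

* `normRed_aux`, `resFin_aux`          : the two binders of the descent, any `a`;
* `exists_lift_unit_bar_of_aux`        : the lift, any `a`, `gcd (d, m) = 1`;
* `relfinrank_FresBar_three`           : `d = 4`;
* `exists_lift_unit_bar_three`         : `ℓ ≠ 3`, `ℓ ∤ N`, `3 ∤ N`, `m` odd, `ℓ ∤ m`;
* `liftHyp_three`, `k1Stmt_three`, `abHyp_three` : node A5 at `(N', q)`, `q ≠ 3`, `3 ∤ N'`, `m` odd;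
* **`abHyp_two`** : node A5 at `q = 2`, every `N'`, every odd `m` — no frame condition.
-/
import Mathlib
import Fermat.Agent.GB.A.Desc.NormInstH
import Fermat.Agent.GB.A.Desc.LiftOdd

set_option autoImplicit false
set_option synthInstance.maxHeartbeats 400000
set_option maxHeartbeats 1000000
set_option linter.unusedSectionVars false
set_option linter.unusedVariables false
set_option linter.style.haveILetI false

noncomputable section

namespace Fermat.Agent.GE8.LLQ.Aux3.Lift3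

open ModularCurve IsLocalRing AlgebraicCurve HahnSeries IntermediateField
open Fermat.Agent.S24 Fermat.Agent.S24_helper62 Fermat.Agent.GJ.J1 Fermat.Agent.GJ.J1.Val
open Fermat.Agent.GJ.KumGroup Fermat.Agent.GJ.Kum.KumType Fermat.Agent.GJ.HN
open Fermat.Agent.GJ.HInputs Fermat.Agent.GB.A.Desc Fermat.Agent.GB.A.Desc.LiftOdd
open Fermat.Agent.GB.A.Desc.NormInstH

/-! ### the descent through the level `N·a` -/

section Modular

open Fermat.Agent.GK.UTr

variable (N a : ℕ) [NeZero N] [NeZero a] (A : ValuationSubring Kb)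

local notation "𝕜" => ResidueField A

/-- finiteness of the residue extension `FresBar (N·a) A / FresBar N A` at a prime `q ∤ N·a`. -/
theorem resFin_aux {q : ℕ} (hq : q.Prime) (hA : A.LiesOverPrime q) (hqN : ¬ q ∣ N * a) :
    @FiniteDimensional (FresBar N A) (FresBar (N * a) A) _ _
      (inclAlgebra (FresBar_le_level N a A)).toModule :=
  ResDeg.finiteDimensional_inclusion _ _ (FresBar_le_level N a A)
    (relfinrank_FresBar_pos N a A hq hA hqN).ne'

/-- **the norm `F_{N·a} → F_N` commutes with the reduction** at a prime `q ∤ N·a`: a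
Gauss-integral element whose reduction lies in `FresBar N A` has Gauss-integral norm, reducing to
`ū ^ d`, `d = [FresBar (N·a) A : FresBar N A]`. -/
theorem normRed_aux {q : ℕ} (hq : q.Prime) (hA : A.LiesOverPrime q) (hqN : ¬ q ∣ N * a)
    (u₂ : (redDataBar (N * a) A).Rw) (ub : FresBar N A)
    (hred : (((redDataBar (N * a) A).red u₂ : FresBar (N * a) A) : LaurentSeries 𝕜) =
      (ub : LaurentSeries 𝕜)) :
    ∃ h : normAlong (alphaB N a) ((u₂ : (redDataBar (N * a) A).Rw) : FK (N * a)) ∈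
        (redDataBar N A).Rw,
      (redDataBar N A).red ⟨_, h⟩ = ub ^ relfinrank (FresBar N A) (FresBar (N * a) A) := by
  have hF : modularFunctionFieldBar N ≤ modularFunctionFieldBar (N * a) := le_level N a
  have hk : FresBar N A ≤ FresBar (N * a) A := FresBar_le_level N a A
  obtain ⟨h, hn⟩ := norm_red_inclusion hF hk (redDataBar N A).Rw (redDataBar (N * a) A).Rw
    (fun x => alphaB_mem_Rw1_iff N a A x) (redDataBar N A).red (redDataBar (N * a) A).red
    (redDataBar (N * a) A).red_surjective (redDataBar N A).red_eq_zero_iff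
    (fun x hx' => coe_red1_alphaB N a A (x : FK N) x.2 hx')
    (relfinrank_FresBar_pos N a A hq hA hqN).ne'
    (relfinrank_FN_eq_FresBar N a A hq hA hqN) u₂ ub hred
  exact ⟨h, hn⟩

variable {N a A}

/-- **torsion lifting at a good level `N` from the level `N·a`**: if the frames at residue
characteristic `ℓ` exist at level `N·a` and `d = [FresBar (N·a) A : FresBar N A]` is prime to `m`,
every `m`-divisible function of the reduction lifts to an `m`-divisible Gauss unit of `F_N`. -/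
theorem exists_lift_unit_bar_of_aux {ℓ : ℕ} (hℓ : ℓ.Prime) (hℓNa : ¬ ℓ ∣ N * a)
    (h2 : ℓ = 2 → 3 ∣ N * a) (h3 : ℓ = 3 → 2 ∣ N * a) (hA : A.LiesOverPrime ℓ) {m : ℕ}
    (hm : 1 ≤ m) (hmℓ : ¬ ℓ ∣ m)
    (hcop : Nat.Coprime (relfinrank (FresBar N A) (FresBar (N * a) A)) m)
    {ut : FresBar N A} (hut : ut ≠ 0)
    (hdiv : ∀ Q : Place 𝕜 (FresBar N A), (m : ℤ) ∣ Q.ord ut) :
    ∃ u : (redDataBar N A).Rw, (redDataBar N A).red u = ut ∧
      ∀ P : Place Kb (FK N), (m : ℤ) ∣ P.ord ((u : (redDataBar N A).Rw) : FK N) := by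
  have hle : FresBar N A ≤ FresBar (N * a) A := FresBar_le_level N a A
  have hfin := resFin_aux N a A hℓ hA hℓNa
  -- `ū` in the bigger residue field
  set ut' : FresBar (N * a) A := IntermediateField.inclusion hle ut with hut'
  have hut'0 : ut' ≠ 0 := (map_ne_zero (IntermediateField.inclusion hle)).2 hut
  have hdiv' : ∀ Q' : Place 𝕜 (FresBar (N * a) A), (m : ℤ) ∣ Q'.ord ut' := by
    intro Q'
    exact dvd_ord_inclusion_of_dvd hle hfin (m : ℤ) ut hdiv Q'
  -- the lift at level `N·a`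
  obtain ⟨u₂, hred₂, hdiv₂⟩ := Fermat.Agent.GB.A.K2Gen.Bar.exists_lift_unit_bar (N * a) A hℓ hℓNa
    h2 h3 hA hm hmℓ hut'0 hdiv'
  -- its norm
  obtain ⟨hmem, hredv⟩ := normRed_aux N a A hℓ hA hℓNa u₂ ut
    (by rw [hred₂]; exact coe_inclusion' hle ut)
  have hu₂0 : ((u₂ : (redDataBar (N * a) A).Rw) : FK (N * a)) ≠ 0 :=
    Fermat.Agent.GB.A.A5.KerRedUp.coe_ne_zero_of_red_ne_zero (by rw [hred₂]; exact hut'0)
  have hvdiv : ∀ P : Place Kb (FK N), (m : ℤ) ∣ P.ord
      (normAlong (alphaB N a) ((u₂ : (redDataBar (N * a) A).Rw) : FK (N * a))) := by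
    intro P
    exact normUnits_mem N a m (Units.mk0 _ hu₂0) (fun Q => hdiv₂ Q) P
  exact exists_lift_of_pow (redDataBar N A) hcop hut ⟨_, hmem⟩ hredv hvdiv

end Modular

/-! ### the auxiliary factor `3`: degree `4` -/

section Three

variable (N : ℕ) [NeZero N] (A : ValuationSubring Kb)

local notation "𝕜" => ResidueField A

/-- `ψ(N·3) = 4 ψ(N)` for `3 ∤ N`. -/
theorem dedekindPsi_mul_three (hN3 : ¬ 3 ∣ N) : dedekindPsi (N * 3) = dedekindPsi N * 4 := by
  have hcop : Nat.Coprime N 3 :=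
    Nat.coprime_comm.mp ((Nat.Prime.coprime_iff_not_dvd Nat.prime_three).mpr hN3)
  rw [Fermat.Agent.S20_helper27.dedekindPsi_mul hcop]
  have h1 : dedekindPsi 3 = 4 := by
    have h := Fermat.Agent.S20_helper27.dedekindPsi_prime_pow Nat.prime_three (k := 1) one_pos
    simp only [pow_one, Nat.sub_self, pow_zero] at h
    exact h
  rw [h1]

/-- **`[FresBar (N·3) A : FresBar N A] = 4`** at a prime `q ∤ N·3`, `3 ∤ N`. -/
theorem relfinrank_FresBar_three {q : ℕ} (hq : q.Prime) (hA : A.LiesOverPrime q)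
    (hqN : ¬ q ∣ N * 3) (hN3 : ¬ 3 ∣ N) :
    relfinrank (FresBar N A) (FresBar (N * 3) A) = 4 := by
  have h := psi_mul_relfinrank_FresBar N 3 A hq hA hqN
  rw [dedekindPsi_mul_three N hN3] at h
  exact Nat.eq_of_mul_eq_mul_left (dedekindPsi_pos' N) h

variable {N A}

/-- **torsion lifting at a good level prime to `3`, residue characteristic `ℓ ≠ 3`, `m` odd** —
in particular `ℓ = 2`, `m = 3`: no frame condition. -/
theorem exists_lift_unit_bar_three {ℓ : ℕ} (hℓ : ℓ.Prime) (hℓ3 : ℓ ≠ 3) (hℓN : ¬ ℓ ∣ N)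
    (hN3 : ¬ 3 ∣ N) (hA : A.LiesOverPrime ℓ) {m : ℕ} (hm : Odd m) (hmℓ : ¬ ℓ ∣ m)
    {ut : FresBar N A} (hut : ut ≠ 0)
    (hdiv : ∀ Q : Place 𝕜 (FresBar N A), (m : ℤ) ∣ Q.ord ut) :
    ∃ u : (redDataBar N A).Rw, (redDataBar N A).red u = ut ∧
      ∀ P : Place Kb (FK N), (m : ℤ) ∣ P.ord ((u : (redDataBar N A).Rw) : FK N) := by
  have hℓN3 : ¬ ℓ ∣ N * 3 := by
    intro h
    rcases (Nat.Prime.dvd_mul hℓ).1 h with h | h
    · exact hℓN h
    · exact hℓ3 ((Nat.prime_dvd_prime_iff_eq hℓ Nat.prime_three).1 h)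
  have hm1 : 1 ≤ m := hm.pos
  refine exists_lift_unit_bar_of_aux (a := 3) hℓ hℓN3 (fun _ => Dvd.intro_left N rfl)
    (fun e => absurd e hℓ3) hA hm1 hmℓ ?_ hut hdiv
  rw [relfinrank_FresBar_three N A hℓ hA hℓN3 hN3]
  have h2 : Nat.Coprime 2 m := Nat.coprime_two_left.mpr hm
  have h4 : Nat.Coprime (2 ^ 2) m := Nat.Coprime.pow_left 2 h2
  exact h4

end Three

/-! ### node A5 at `q ≠ 3` without the frame condition `q = 2 → 3 ∣ N'` -/

section K1

open Fermat.Agent.GH.Inst Fermat.Agent.GK.AL Fermat.Agent.GK.UqKronecker Fermat.Agent.GK.UTr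
  Fermat.Agent.GK.PsiFNGood Fermat.Agent.GK.QS Fermat.Agent.GK.New Fermat.Agent.GK.Tate.KumHecke
  Fermat.Agent.GB.A.FP Fermat.Agent.GB.A.A5.WCopy Fermat.Agent.GB.A.A5.KerRedUp

variable {q : ℕ} [NeZero q] (A : ValuationSubring Kb) (hA : A.LiesOverPrime q)
variable (N' : ℕ) [NeZero N'] [NeZero (N' * q)] (h' : ExactDvd q (N' * q))

local notation "𝕜" => ResidueField A

include hA h' in
/-- the lifting statement at the good level `N'`, `3 ∤ N'`, `q ≠ 3`, `m` odd. -/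
theorem liftHyp_three (hq3 : q ≠ 3) (hN3 : ¬ 3 ∣ N') {m : ℕ} (hm : Odd m) (hqm : ¬ q ∣ m) :
    LiftHyp A N' m :=
  fun hut hdiv =>
    exists_lift_unit_bar_three h'.prime hq3 (not_dvd_good N' h') hN3 hA hm hqm hut hdiv

include hA h' in
/-- helper56's `K1Stmt` at `q ≠ 3`, `3 ∤ N'`, `m` odd. -/
theorem k1Stmt_three (hq3 : q ≠ 3) (hN3 : ¬ 3 ∣ N') {m : ℕ} (hm : Odd m) (hqm : ¬ q ∣ m) :
    K1Stmt A m (N' := N') (q := q) :=
  k1Stmt_of_lift A hA N' h' (liftHyp_three A hA N' h' hq3 hN3 hm hqm)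

include hA in
/-- **node A5 at `q ≠ 3`, `3 ∤ N'`, `m` odd** — no frame condition. -/
theorem abHyp_three (hq3 : q ≠ 3) (hN3 : ¬ 3 ∣ N')
    (S : Finset ℕ) (m : ℕ) [NeZero m] (hm : Odd m)
    (hqm : ¬ q ∣ m) {ζ : ℂ} (hζ : IsPrimitiveRoot ζ m)
    (hN'S : ∀ r : ℕ, r.Prime → r ∣ N' → r ∈ S) (hMS : ∀ r : ℕ, r.Prime → r ∣ N' * q → r ∈ S)
    (hmS : ∀ r : ℕ, r.Prime → r ∣ m → r ∈ S)
    (P : MvPolynomial (PrimeIdx S) ℤ)
    (hP : MvPolynomial.aeval (TfamH (N' := N') (S := S) hN'S) P = 0) :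
    AbHyp h' A m (kumHecke (N' * q) (↑S : Set ℕ) m hζ (MvPolynomial.aeval (TfamH hMS) P)) :=
  Fermat.Agent.GB.A.A5.AbHypPlug.abHyp_of_k1Stmt h' A S m
    (k1Stmt_three A hA N' h' hq3 hN3 hm hqm) hζ hN'S hMS hmS P hP

end K1

/-! ### node A5 at `q = 2` -/

section Two

open Fermat.Agent.GH.Inst Fermat.Agent.GK.AL Fermat.Agent.GK.UqKronecker Fermat.Agent.GK.UTr
  Fermat.Agent.GK.PsiFNGood Fermat.Agent.GK.QS Fermat.Agent.GK.New Fermat.Agent.GK.Tate.KumHecke
  Fermat.Agent.GB.A.FP Fermat.Agent.GB.A.A5.WCopy Fermat.Agent.GB.A.A5.KerRedUp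

/-- **node A5 at `q = 2`, EVERY good level `N'`, EVERY odd `m`** — no frame condition: for `3 ∣ N'`
this is `KerRedUp.abHyp`, for `3 ∤ N'` the descent from the level `N'·3`. -/
theorem abHyp_two (A : ValuationSubring Kb) (hA : A.LiesOverPrime 2) (N' : ℕ) [NeZero N']
    (h' : ExactDvd 2 (N' * 2)) (S : Finset ℕ) (m : ℕ) [NeZero m] (hm : Odd m)
    {ζ : ℂ} (hζ : IsPrimitiveRoot ζ m)
    (hN'S : ∀ r : ℕ, r.Prime → r ∣ N' → r ∈ S) (hMS : ∀ r : ℕ, r.Prime → r ∣ N' * 2 → r ∈ S)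
    (hmS : ∀ r : ℕ, r.Prime → r ∣ m → r ∈ S)
    (P : MvPolynomial (PrimeIdx S) ℤ)
    (hP : MvPolynomial.aeval (TfamH (N' := N') (S := S) hN'S) P = 0) :
    AbHyp h' A m (kumHecke (N' * 2) (↑S : Set ℕ) m hζ (MvPolynomial.aeval (TfamH hMS) P)) := by
  have h2m : ¬ 2 ∣ m := fun hd => (Nat.not_even_iff_odd.2 hm) (even_iff_two_dvd.2 hd)
  by_cases h3 : 3 ∣ N'
  · exact Fermat.Agent.GB.A.A5.KerRedUp.abHyp A hA N' h' (fun _ => h3)
      (fun e => absurd e (by norm_num)) S m h2m hζ hN'S hMS hmS P hP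
  · exact abHyp_three A hA N' h' (by norm_num) h3 S m hm h2m hζ hN'S hMS hmS P hP

end Two

end Fermat.Agent.GE8.LLQ.Aux3.Lift3
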