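/-
GATE-E / E8.3 LLQ, RISK-2 (the `(2,3)` circle, helper96 board 7255, RULING A9 7259), A5 half +
TOPS (helper86): **CASE A (Mazur's principle) at `q = 2` WITHOUT frame condition, every odd `p`**
— in particular at `(p, q) = (3, 2)` on a level PRIME TO `3` — in hypothesis form on the A4 half
(`NodeHyp3Stmt`, helper96 `GE8/LLQ/Aux3/Node3.lean`), and the CASE A half of the frozen S38 at
`p = 3` WITHOUT `LLPThreeStmt`.

The FP triple at `(p, N', q = 2)`, `3 ∤ N'`:
* A3 : `GB/A/FPInst.a3` (unconditional);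
* A4 : `NodeHyp3Stmt` = `FP.NodeHyp` at level `N'·2`, `3 ∤ N'`, by descent from the level `N'·2·3`
       (degree `ψ(3) = 4`, no partition of `4` into parts divisible by an odd `m`) — helper96;
* A5 : `Lift3.abHyp_two` (norm descent from the level `N'·3`, degree `4`, Bezout).

* `NodeHyp3Stmt`       : the A4 half, as a statement;
* `fpAt_two`           : the FP triple at `q = 2`, `3 ∤ N'`;
* `caseA38_two_aux`    : CASE A at `q = 2`, `3 ∤ M`, with an auxiliary prime `r ≡ 11 (12)` in `M/2`;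
* `caseA38_two`        : CASE A at `q = 2`, every squarefree `M`, no frame condition;
* **`lower_two`**      : `ρ̄` unramified at `2`, `2 ∣ M` squarefree, level `M` ⟹ level `M / 2`
                         (every odd `p`; at `p = 3` this cuts the `(2,3)` circle);
* `hSg_of_minimal`     : the minimal-level binder `hSg` at every odd `p ≠ 3`… see `hSgSupply_three`;
* **`hSgSupply_three`** : `NodeHyp3Stmt → HSgSupply 3`  (no `LLPThreeStmt`);
* **`s38At_three`**    : `NodeHyp3Stmt → CaseB38minE 3 → S38At 3`.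
-/
import Mathlib
import Fermat.Agent.GE8.LLQ.Aux3.Lift3
import Fermat.Agent.GE8.LLQ.S38Min

set_option autoImplicit false
set_option linter.unusedSectionVars false
set_option linter.unusedVariables false
set_option linter.style.haveILetI false

noncomputable section

open WeierstrassCurve WeierstrassCurve.Affine WeierstrassCurve.Affine.Point
open scoped WeierstrassCurve.Affine

namespace Fermat.Agent.GE8.LLQ.Aux3.CaseA3

open AlgebraicCurve ModularCurve
open Fermat.Agent.GJ Fermat.Agent.GJ.KumGroup Fermat.Agent.GJ.Kum.KumType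
open Fermat.Agent.GK.UQ Fermat.Agent.GK.New Fermat.Agent.GK.Tate.KumHecke
open Fermat.Agent.GK.UqKronecker Fermat.Agent.GK.AL
open Fermat.Agent.GB.A Fermat.Agent.GB.Top.S43Frey
open Fermat.Agent.GE8.LLQ.CaseACore Fermat.Agent.GE8.LLQ.CaseASide
open Fermat.Agent.GE8.LLQ.AuxJuggle Fermat.Agent.GE8.LLQ.S38Min

/-- **the A4 half** (helper96): `FP.NodeHyp` at the level `N'·2`, residue characteristic `2`,
`3 ∤ N'`, every odd prime `m`, when the level `N'·3` has no elliptic points. -/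
def NodeHyp3Stmt : Prop :=
  ∀ (N' : ℕ) [NeZero N'] (h : ExactDvd 2 (N' * 2)) (A : ValuationSubring Kb)
    (_ : A.LiesOverPrime 2) (_ : ¬ 3 ∣ N') (_ : nuTwo (N' * 3) = 0) (_ : nuThree (N' * 3) = 0)
    (m : ℕ) (_ : m.Prime) (_ : m ≠ 2), Fermat.Agent.GB.A.FP.NodeHyp h A m

/-- **the FP triple (A3 + A4 + A5) at `(p, N', 2)`, `3 ∤ N'`, `p` odd.** -/
theorem fpAt_two (hN : NodeHyp3Stmt) (p : ℕ) [Fact p.Prime] (hp2 : p ≠ 2) (N' : ℕ) [NeZero N']
    (h : ExactDvd 2 (N' * 2)) (h3 : ¬ 3 ∣ N')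
    (hν2 : nuTwo (N' * 3) = 0) (hν3 : nuThree (N' * 3) = 0)
    (A : ValuationSubring Kb) (hA : A.LiesOverPrime 2) : FPAt p N' 2 h A := by
  have hp : p.Prime := Fact.out
  haveI : NeZero p := ⟨hp.ne_zero⟩
  have hodd : Odd p := hp.odd_of_ne_two hp2
  refine ⟨Fermat.Agent.GB.A.FPInst.a3 p N' 2 h A hA, hN N' h A hA h3 hν2 hν3 p hp hp2, ?_⟩
  intro S hN'S hMS hmS ζ hζ P hP
  exact Fermat.Agent.GE8.LLQ.Aux3.Lift3.abHyp_two A hA N' h S p hodd hζ hN'S hMS hmS P hP

section Main

variable (hN : NodeHyp3Stmt)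
  (p : ℕ) [Fact p.Prime] (hp2 : p ≠ 2) (W : WeierstrassCurve ℤ) (hΔ : W.Δ ≠ 0)
  (hW : W.IsSemistableModel)
  (hcard₁ : Nat.card (Submodule.torsionBy ℤ
    ((W.map (Int.castRingHom ℚ))⁄(AlgebraicClosure ℚ)).Point p) = p ^ 2)
  (hker : GaloisFactorsThroughFiniteLevel
    (WeierstrassCurve.Affine.Point.galoisRepModuleEnd (K := AlgebraicClosure ℚ) ℚ
      (W.map (Int.castRingHom ℚ)) p))
  (hirr : W.ModRepIsIrreducible p)

include hN hp2 hΔ hirr in
/-- **CASE A at `q = 2` on a level prime to `3`** carrying an auxiliary prime `r ≡ 11 (mod 12)`. -/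
theorem caseA38_two_aux (M : ℕ) (h2M : 2 ∣ M) (hMsq : Squarefree M) (h3M : ¬ 3 ∣ M)
    (r : ℕ) (hr : r.Prime) (hr12 : r % 12 = 11) (hrM : r ∣ M / 2)
    (hunr : ((W.map (Int.castRingHom ℚ)).residualGaloisRepOf p hcard₁ hker).IsUnramifiedAt 2)
    (hres : W.IsResiduallyModularOfLevel p M)
    (hnot : ¬ W.IsResiduallyModularOfLevel p (M / 2)) :
    2 % p = 1 ∧ ScalarFrob38 W p 2 := by
  obtain ⟨N', rfl⟩ : ∃ N', M = N' * 2 := ⟨M / 2, (Nat.div_mul_cancel h2M).symm⟩
  rw [Nat.mul_div_cancel _ (by norm_num : 0 < 2)] at hnot hrM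
  have hM0 : N' * 2 ≠ 0 := hMsq.ne_zero
  have hN'0 : N' ≠ 0 := left_ne_zero_of_mul hM0
  haveI : NeZero N' := ⟨hN'0⟩
  have hq2' : ¬ 2 ^ 2 ∣ N' * 2 := fun hd => by
    have h1 := hMsq 2 (by rw [← sq]; exact hd)
    exact absurd (Nat.isUnit_iff.1 h1) (by norm_num)
  have h : ExactDvd 2 (N' * 2) := ⟨Nat.prime_two, h2M, hq2'⟩
  have h3N' : ¬ 3 ∣ N' := fun hd => h3M (hd.mul_right 2)
  have hrN3 : r ∣ N' * 3 := hrM.mul_right 3
  have hν2 : nuTwo (N' * 3) = 0 :=
    Fermat.Agent.GL.AuxPrime.nuTwo_eq_zero_of_dvd hr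
      (Fermat.Agent.GL.AuxPrime.mod_four_of_mod_twelve hr12) hrN3
  have hν3 : nuThree (N' * 3) = 0 :=
    Fermat.Agent.GL.AuxPrime.nuThree_eq_zero_of_dvd hr
      (Fermat.Agent.GL.AuxPrime.mod_three_of_mod_twelve hr12) hrN3
  have hp : p.Prime := Fact.out
  have h2p : (2 : ℕ) ≠ p := fun e => hp2 e.symm
  exact caseA_of_fpAt p hp2 W hΔ hcard₁ hker hirr N' 2 h h2p hunr hres hnot
    (fun A hA => fpAt_two hN p hp2 N' h h3N' hν2 hν3 A hA)

include hN hp2 hΔ hW hirr in
/-- **CASE A at `q = 2`, every squarefree level, NO frame condition**, every odd `p`. -/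
theorem caseA38_two (M : ℕ) (h2M : 2 ∣ M) (hMsq : Squarefree M)
    (hunr : ((W.map (Int.castRingHom ℚ)).residualGaloisRepOf p hcard₁ hker).IsUnramifiedAt 2)
    (hres : W.IsResiduallyModularOfLevel p M)
    (hnot : ¬ W.IsResiduallyModularOfLevel p (M / 2)) :
    2 % p = 1 ∧ ScalarFrob38 W p 2 := by
  have hp : p.Prime := Fact.out
  have h2p : (2 : ℕ) ≠ p := fun e => hp2 e.symm
  by_cases h3M : 3 ∣ M
  · -- `3` is in the level: the frames at residue characteristic `2` exist
    have h3M2 : 3 ∣ M / 2 := by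
      have h1 : 3 ∣ M / 2 * 2 := by rw [Nat.div_mul_cancel h2M]; exact h3M
      exact (Nat.Coprime.dvd_of_dvd_mul_right (by norm_num : Nat.Coprime 3 2) h1)
    exact Fermat.Agent.GE8.LLQ.Final.caseA38 p hp2 W hΔ hW hcard₁ hker hirr M 2 Nat.prime_two h2p
      h2M hMsq (fun _ => h3M2) (fun e => absurd e (by norm_num)) hunr hres hnot
  · -- level prime to `3`: the AUX-3 descent, at a level carrying an auxiliary prime
    have hM0 : M ≠ 0 := hMsq.ne_zero
    obtain ⟨r, hr, hrM, hr12, hrem⟩ :=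
      Fermat.Agent.GE8.LLQ.Final.auxSupply W hW hΔ p hp2 hirr M hM0
    have hsq : Squarefree (M * r) := squarefree_mul_prime hMsq hr hrM
    have hres' : W.IsResiduallyModularOfLevel p (M * r) :=
      Fermat.Agent.GB.Top.SplitT.isResiduallyModularOfLevel_of_dvd hres (Dvd.intro r rfl)
        hsq.ne_zero
    have hdiv : M * r / 2 = M / 2 * r := mul_div_of_dvd h2M
    have hsq' : Squarefree (M / 2 * r) := by
      rw [← hdiv]
      exact hsq.squarefree_of_dvd (Nat.div_dvd_of_dvd (h2M.mul_right r))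
    have hnot' : ¬ W.IsResiduallyModularOfLevel p (M * r / 2) := by
      rw [hdiv]
      exact fun h => hnot (hrem (M / 2) hsq' h)
    have hr3 : r ≠ 3 := fun e => by rw [e] at hr12; norm_num at hr12
    have h3Mr : ¬ 3 ∣ M * r := fun hd => by
      rcases (Nat.Prime.dvd_mul Nat.prime_three).1 hd with hd | hd
      · exact h3M hd
      · exact hr3 ((Nat.prime_dvd_prime_iff_eq Nat.prime_three hr).1 hd).symm
    exact caseA38_two_aux hN p hp2 W hΔ hcard₁ hker hirr (M * r) (h2M.mul_right r) hsq h3Mr r hr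
      hr12 (by rw [hdiv]; exact Dvd.intro_left _ rfl) hunr hres' hnot'

include hN hp2 hΔ hW hirr in
/-- **Mazur's principle at `q = 2`, no condition at all** (every odd `p`): if `ρ̄` is unramified at
`2` and `2` divides the squarefree level `M`, then `M / 2` is a level.  At `p = 3`, `3 ∤ M` this is
the step that cuts the `(2,3)` circle. -/
theorem lower_two (M : ℕ) (h2M : 2 ∣ M) (hMsq : Squarefree M)
    (hunr : ((W.map (Int.castRingHom ℚ)).residualGaloisRepOf p hcard₁ hker).IsUnramifiedAt 2)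
    (hres : W.IsResiduallyModularOfLevel p M) :
    W.IsResiduallyModularOfLevel p (M / 2) := by
  have hp : p.Prime := Fact.out
  by_contra hnot
  exact two_mod_ne_one hp hp2
    (caseA38_two hN p hp2 W hΔ hW hcard₁ hker hirr M h2M hMsq hunr hres hnot).1

include hN hp2 hΔ hW hirr in
/-- **`ℓ = 2` at a minimal level**: `ρ̄` is ramified at `2` (every odd `p`, no condition). -/
theorem not_isUnramifiedAt_two_of_minimal (M : ℕ) (hMsq : Squarefree M) (h2M : 2 ∣ M)
    (hres : W.IsResiduallyModularOfLevel p M)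
    (hmin : ∀ m : ℕ, m ∣ M → m ≠ M → ¬ W.IsResiduallyModularOfLevel p m) :
    ¬ ((W.map (Int.castRingHom ℚ)).residualGaloisRepOf p hcard₁ hker).IsUnramifiedAt 2 := by
  intro hunr
  have hM0 : M ≠ 0 := hMsq.ne_zero
  exact hmin (M / 2) (Nat.div_dvd_of_dvd h2M)
    (div_prime_ne_self (Nat.pos_of_ne_zero hM0) Nat.prime_two h2M)
    (lower_two hN p hp2 W hΔ hW hcard₁ hker hirr M h2M hMsq hunr hres)

end Main

/-! ### the CASE A half of S38 at `p = 3`, without E8.4 -/

section Three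

/-- **the CASE A half at `p = 3`** — from the A4 half of the AUX-3 descent only. -/
theorem hSgSupply_three (hN : NodeHyp3Stmt) : HSgSupply 3 := by
  intro W hΔ hW hcard₁ hker hirr M hMsq hres hmin ℓ hℓ hℓM hℓp
  by_cases hℓ2 : ℓ = 2
  · subst hℓ2
    left
    exact not_isUnramifiedAt_two_of_minimal hN 3 (by norm_num) W hΔ hW hcard₁ hker hirr M hMsq hℓM
      hres hmin
  · exact Fermat.Agent.GE8.LLQ.Final.hSg_of_minimal_of_five_le_prime 3 (by norm_num) W hΔ hW hcard₁
      hker hirr M hMsq hres hmin ℓ hℓ (five_le_of_prime hℓ hℓ2 hℓp) hℓM hℓp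

/-- **the frozen S38 at `p = 3` for general `W`** from the A4 half of the AUX-3 descent and CASE B
at a minimal level — no E8.4 input. -/
theorem s38At_three (hN : NodeHyp3Stmt) (hB : CaseB38minE 3) : S38At 3 :=
  s38At_of_min 3 (hSgSupply_three hN) hB

end Three

end Fermat.Agent.GE8.LLQ.Aux3.CaseA3
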