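/-
GATE-E / E8.3 (LLQ) at `(p, q) = (3, 2)` / AUX-3 descent, file 1 (helper96; board 7255).

**Descent of `m`-divisibility of orders along a finite separable extension `F'/F` of function
fields whose DEGREE is prime to `m`** (the crude criterion of `GB/A/Desc/PlaceExt`
"every `0 < e ≤ [F' : F]` is prime to `m`" fails for `[F' : F] = 4 = ψ(3)`, `m = 3`).

* `exists_place_above_not_dvd` : if `m ∤ [F' : F]`, every place `v` of `F` has a place `w` of `F'`
  above it with `m ∤ e(w | v)` (fundamental identity `∑ e f = [F' : F]` of Mathlib on the integral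
  closure of `O_v` in `F'`: if `m` divided every `e` it would divide the degree);
* `dvd_ord_of_forall_dvd_above_of_not_dvd_finrank` : `m` prime, `m ∤ [F' : F]`, `m ∣ ord_w u` at
  every place `w` of `F'` ⟹ `m ∣ ord_v u` at every place `v` of `F`.
-/
import Mathlib
import Fermat.Prelude.Def_AlgebraicCurve_DivisorPushPull
import Fermat.Agent.S24_helper6.PlaceDict
import Fermat.Agent.S24.PlaceBasic

set_option autoImplicit false

noncomputable section

namespace Fermat.Agent.GE8.LLQ.Aux3.PlaceDvd

open AlgebraicCurve IsDedekindDomain WithZero
open Fermat.Agent.S24 Fermat.Agent.S24_helper6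

variable {K F F' : Type*} [Field K] [Field F] [Field F'] [Algebra K F] [Algebra K F']
  [Algebra F F'] [IsScalarTower K F F']

variable [FiniteDimensional F F'] [Algebra.IsSeparable F F']

/-- **a place above `v` whose ramification index is prime to `m`** (`m ∤ [F' : F]`). -/
theorem exists_place_above_not_dvd (m : ℕ) (hd : ¬ m ∣ Module.finrank F F') (v : Place K F) :
    ∃ w : Place K F', w.restrict F = v ∧ ¬ m ∣ w.ramificationIndex F := by
  classical
  let algOv : Algebra v.toValuationSubring F' :=
    ((algebraMap F F').comp (algebraMap v.toValuationSubring F)).toAlgebra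
  have : IsScalarTower v.toValuationSubring F F' :=
    IsScalarTower.of_algebraMap_eq fun _ => rfl
  let B : Subalgebra v.toValuationSubring F' := integralClosure v.toValuationSubring F'
  have : IsDedekindDomain B := integralClosure.isDedekindDomain v.toValuationSubring F F'
  have : IsFractionRing B F' := integralClosure.isFractionRing_of_finite_extension F F'
  have hfin : Module.Finite v.toValuationSubring B :=
    IsIntegralClosure.finite v.toValuationSubring F F' B
  have hinj : Function.Injective (algebraMap v.toValuationSubring B) := by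
    intro a b hab
    have h := congrArg (algebraMap B F') hab
    have h2 : algebraMap F F' (a : F) = algebraMap F F' (b : F) := h
    exact Subtype.ext ((algebraMap F F').injective h2)
  have : Module.IsTorsionFree v.toValuationSubring B :=
    Module.isTorsionFree_iff_algebraMap_injective.mpr hinj
  have : IsScalarTower v.toValuationSubring B F' := inferInstance
  set p : Ideal v.toValuationSubring := IsLocalRing.maximalIdeal v.toValuationSubring with hp
  have hp0 : p ≠ ⊥ := IsDiscreteValuationRing.not_a_field _
  have key := Ideal.sum_ramification_inertia_eq_finrank p B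
  have hrk : Module.finrank F F' = Module.finrank v.toValuationSubring B :=
    IsFractionRing.finrank_eq v.toValuationSubring F B F'
  -- some prime over `p` has ramification index prime to `m`
  obtain ⟨q, hq⟩ : ∃ q : p.primesOver B, ¬ m ∣ q.1.ramificationIdx v.toValuationSubring := by
    by_contra hall
    simp only [not_exists, not_not] at hall
    apply hd
    rw [hrk, ← key]
    exact Finset.dvd_sum fun q _ => Dvd.dvd.mul_right (hall q) _
  have hqP : q.1.IsPrime := q.2.1
  have hqL : q.1.LiesOver p := q.2.2
  have hq0 : q.1 ≠ ⊥ := Ideal.ne_bot_of_mem_primesOver hp0 q.2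
  let P : HeightOneSpectrum B := ⟨q.1, hqP, hq0⟩
  let algKB : Algebra K B :=
    ((algebraMap v.toValuationSubring B).comp (algebraMap K v.toValuationSubring)).toAlgebra
  have : IsScalarTower K B F' :=
    IsScalarTower.of_algebraMap_eq fun a => by
      show algebraMap K F' a = algebraMap F F' (algebraMap K F a)
      rw [← IsScalarTower.algebraMap_apply]
  have hwv : (placeOfPrime (K := K) (F := F') P).restrict F = v := by
    symm
    apply PlaceB.eq_of_le
    intro a ha
    show algebraMap F F' a ∈ (placeOfPrime (K := K) (F := F') P).toValuationSubring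
    exact containsB_placeOfPrime (K := K) (F := F') P
      (algebraMap v.toValuationSubring B ⟨a, ha⟩)
  refine ⟨placeOfPrime (K := K) (F := F') P, hwv, ?_⟩
  obtain ⟨π, hπ⟩ := IsDiscreteValuationRing.exists_irreducible v.toValuationSubring
  have hπ0 : π ≠ 0 := hπ.ne_zero
  have hordπ : v.ord (π : F) = 1 := v.ord_coe_irreducible hπ
  have hpπ : p = Ideal.span {π} := hπ.maximalIdeal_eq
  have hb0 : algebraMap v.toValuationSubring B π ≠ 0 := (map_ne_zero_iff _ hinj).mpr hπ0
  have hmap : p.map (algebraMap v.toValuationSubring B) =
      Ideal.span {algebraMap v.toValuationSubring B π} := by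
    rw [hpπ, Ideal.map_span, Set.image_singleton]
  have hmap0 : p.map (algebraMap v.toValuationSubring B) ≠ ⊥ := by
    rw [hmap, Ne, Ideal.span_singleton_eq_bot]
    exact hb0
  have hmult : q.1.ramificationIdx v.toValuationSubring =
      multiplicity q.1 (p.map (algebraMap v.toValuationSubring B)) :=
    Ideal.IsDedekindDomain.ramificationIdx_eq_multiplicity p q.1 hmap0
  have hfinm : FiniteMultiplicity q.1 (Ideal.span {algebraMap v.toValuationSubring B π}) := by
    apply FiniteMultiplicity.of_not_isUnit
    · rw [Ideal.isUnit_iff]
      exact hqP.ne_top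
    · rw [← hmap]
      exact hmap0
  have h1 : (placeOfPrime (K := K) (F := F') P).ord (algebraMap F F' (π : F)) =
      ((placeOfPrime (K := K) (F := F') P).ramificationIndex F : ℤ) := by
    rw [Place.ord_restrict, hwv, hordπ, mul_one]
  have h2 : (placeOfPrime (K := K) (F := F') P).ord (algebraMap F F' (π : F)) =
      ((q.1.ramificationIdx v.toValuationSubring : ℕ) : ℤ) := by
    have e1 : algebraMap F F' (π : F) = algebraMap B F' (algebraMap v.toValuationSubring B π) :=
      rfl
    have hne : algebraMap B F' (algebraMap v.toValuationSubring B π) ≠ 0 :=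
      (map_ne_zero_iff _ (IsFractionRing.injective B F')).mpr hb0
    rw [e1, placeOfPrime_ord_eq_iff P hne, HeightOneSpectrum.valuation_of_algebraMap]
    apply le_antisymm
    · rw [HeightOneSpectrum.intValuation_le_exp_iff_le_emultiplicity,
        hfinm.emultiplicity_eq_multiplicity, hmult, hmap]
    · rw [HeightOneSpectrum.exp_le_intValuation_iff_emultiplicity_le,
        hfinm.emultiplicity_eq_multiplicity, hmult, hmap]
  have h3 : (placeOfPrime (K := K) (F := F') P).ramificationIndex F =
      q.1.ramificationIdx v.toValuationSubring := by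
    have := h1.symm.trans h2
    exact_mod_cast this
  rw [h3]
  exact hq

/-- **Descent of divisibility of orders, degree form**: `m` prime, `m ∤ [F' : F]`; if
`m ∣ ord_w u` at every place `w` of `F'`, then `m ∣ ord_v u` at every place `v` of `F`. -/
theorem dvd_ord_of_forall_dvd_above_of_not_dvd_finrank (m : ℕ) (hm : m.Prime)
    (hd : ¬ m ∣ Module.finrank F F') (u : F)
    (hu : ∀ w : Place K F', (m : ℤ) ∣ w.ord (algebraMap F F' u)) (v : Place K F) :
    (m : ℤ) ∣ v.ord u := by
  obtain ⟨w, hw, hmw⟩ := exists_place_above_not_dvd (K := K) m hd v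
  have h1 := hu w
  rw [w.ord_restrict, hw] at h1
  have hcop : IsCoprime (m : ℤ) ((w.ramificationIndex F : ℕ) : ℤ) := by
    rw [Nat.isCoprime_iff_coprime]
    exact (Nat.Prime.coprime_iff_not_dvd hm).mpr hmw
  exact hcop.dvd_of_dvd_mul_left h1

end Fermat.Agent.GE8.LLQ.Aux3.PlaceDvd
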