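/-
GATE-E / RISK-2 (the (2,3) circle at p = 3), A4 half (helper96), file 3: **`FP.NodeHyp h A 3`
(node A4 at `m = p = 3`) at EVERY level `M` PRIME TO `3`** with `q ∥ M`, `A ∣ q` — in particular
at `q = 2` — by the AUX-3 descent `M·3 → M`.

GATE-B's descent `M·4 → M·2 → M` (`GB/A/Desc/NodeFinal`) needs `q` odd and `m` prime to `6`
(degree `≤ 3`, so every `e ≤ 3`).  Here the auxiliary level is `M·3`:

* the residue extension `FresBar M A ⊆ FresBar (M·3) A` is finite separable of degree EXACTLY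
  `ψ(3) = 4` (`Aux3/ResDeg3`), which is prime to `3`; so above every place there is a place with
  `3 ∤ e` (`Aux3/PlaceDvd`: `Σ e f = 4`) ⟹ `placeDesc_three : PlaceDesc M 3 A 3`;
* at level `M·3 = (M/q·3)·q` the base lemma `GB.A4.Main.nodeHyp` applies: its frame conditions
  `q = 2 → 3 ∣ N'`, `q = 3 → 2 ∣ N'` hold (`3 ∣ N'`, `q ≠ 3`), `nuTwo N' = 0` holds (`3 ∣ N'`,
  `3 ≡ 3 mod 4`); the ONLY side condition left is `nuThree (M/q·3) = 0` (e.g. from an auxiliary
  prime `r ≡ 2 (mod 3)`, `r ∣ M / q`).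

* `nodeHyp_mul_three`       : `NodeHyp` at the level `M·3`;
* `nodeHyp_three`           : `NodeHyp h A 3` at the level `M` (general `M`);
* `nodeHyp_three_mul`       : the same in the spelling `M = N'·q` of `CaseASide.fpAt_side`;
* `nodeHyp_three_of_aux`    : with an auxiliary prime `r ≡ 2 (mod 3)` dividing `N'`.
-/
import Fermat.Agent.GB.A.Desc.NodeAll
import Fermat.Agent.GB.A.A4.Main
import Fermat.Agent.GL.AuxPrime
import Fermat.Agent.GE8.LLQ.Aux3.PlaceDvd
import Fermat.Agent.GE8.LLQ.Aux3.ResDeg3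

set_option autoImplicit false
set_option linter.style.haveILetI false
set_option linter.unusedSectionVars false

noncomputable section

namespace Fermat.Agent.GE8.LLQ.Aux3.Node3

open ModularCurve IsLocalRing AlgebraicCurve HahnSeries
open Fermat.Agent.S24 Fermat.Agent.GJ.J1 Fermat.Agent.GJ.J1.Val
open Fermat.Agent.GJ.KumGroup Fermat.Agent.GJ.Kum.KumType
open Fermat.Agent.GK.UqKronecker Fermat.Agent.GK.AL Fermat.Agent.GK.SS
open Fermat.Agent.GB.A.FP Fermat.Agent.GB.A.Desc

/-! ### generic: descent of `m ∣ ord` along `F ≤ F'` of degree prime to the prime `m` -/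

section Gen

open IntermediateField

variable {k E : Type*} [Field k] [Field E] [Algebra k E] {F F' : IntermediateField k E}
  (hle : F ≤ F')

/-- **inclusion-algebra form of `PlaceDvd.dvd_ord_of_forall_dvd_above_of_not_dvd_finrank`** -/
theorem dvd_ord_of_inclAlgebra_of_not_dvd
    (hfin : @FiniteDimensional F F' _ _ (inclAlgebra hle).toModule)
    (hsep : @Algebra.IsSeparable F F' _ _ (inclAlgebra hle)) (m : ℕ) (hm : m.Prime)
    (hd : ¬ m ∣ @Module.finrank F F' _ _ (inclAlgebra hle).toModule)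
    (x : F) (x' : F') (hxx' : (x' : E) = (x : E))
    (hx' : ∀ w : Place k F', (m : ℤ) ∣ w.ord x') (v : Place k F) : (m : ℤ) ∣ v.ord x := by
  letI := inclAlgebra hle
  have := inclAlgebra_isScalarTower hle
  have e : x' = algebraMap F F' x := Subtype.ext hxx'
  subst e
  exact PlaceDvd.dvd_ord_of_forall_dvd_above_of_not_dvd_finrank (K := k) m hm hd x hx' v

end Gen

section Final

variable {M q : ℕ} [NeZero M]

/-- **(P1') + (P3')**: place-divisibility by `3` descends along `FresBar M A ⊆ FresBar (M·3) A`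
(`q ∥ M`, `A ∣ q`, `3 ∤ M`): the extension is finite separable of degree `4`. -/
theorem placeDesc_three (h : ExactDvd q M) (h3 : ¬ 3 ∣ M) {A : ValuationSubring Kb}
    (hA : A.LiesOverPrime q) : PlaceDesc M 3 A 3 := by
  intro x x' hxx' hx' Q
  have hle : FresBar M A ≤ FresBar (M * 3) A := FresBar_le_level M 3 A
  refine dvd_ord_of_inclAlgebra_of_not_dvd hle
    (ResDeg3.finiteDimensional_FresBar_mul_three A h hA h3 hle)
    (ResDeg3.isSeparable_FresBar_mul_three A h hA hle) 3 Nat.prime_three ?_ x x' hxx' hx' Q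
  rw [ResDeg3.finrank_FresBar_mul_three A h hA h3 hle]
  norm_num

/-- **(A4) at the auxiliary level `M·3`** (`q ∥ M`, `3 ∤ M`, `A ∣ q`): helper84's base lemma
`GB.A4.Main.nodeHyp` at `N' = M/q·3`, transported to the spelling `M * 3` of the level.  The only
side condition left is `nuThree (M/q·3) = 0`. -/
theorem nodeHyp_mul_three (h : ExactDvd q M) (h3 : ¬ 3 ∣ M) {A : ValuationSubring Kb}
    (hA : A.LiesOverPrime q) (hν3 : nuThree (M / q * 3) = 0) (m : ℕ) :
    NodeHyp (ResDeg3.exactDvd_mul_three h h3) A m := by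
  have hqp : q.Prime := h.prime
  have : Fact q.Prime := ⟨hqp⟩
  have : NeZero q := ⟨hqp.ne_zero⟩
  have hM0 : M ≠ 0 := NeZero.ne M
  have hMq : M / q * q = M := Nat.div_mul_cancel h.dvd
  have hq3 : q ≠ 3 := by
    rintro rfl
    exact h3 h.dvd
  have hN0 : M / q * 3 ≠ 0 := by
    intro h0
    have : M / q = 0 := by omega
    rw [this, zero_mul] at hMq
    exact hM0 hMq.symm
  have : NeZero (M / q * 3) := ⟨hN0⟩
  have e : M * 3 = M / q * 3 * q := by
    calc M * 3 = M / q * q * 3 := by rw [hMq]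
      _ = M / q * 3 * q := by ring
  have hqN : ¬ q ∣ M / q * 3 := by
    intro hd
    have hcop : Nat.Coprime q 3 := (Nat.coprime_primes hqp Nat.prime_three).2 hq3
    have hd' : q ∣ M / q := hcop.dvd_of_dvd_mul_right hd
    apply h.not_sq
    obtain ⟨c, hc⟩ := hd'
    refine ⟨c, ?_⟩
    calc M = M / q * q := hMq.symm
      _ = q ^ 2 * c := by rw [hc]; ring
  have h' : ExactDvd q (M / q * 3 * q) := by
    rw [← e]
    exact ResDeg3.exactDvd_mul_three h h3
  have hd3 : 3 ∣ M / q * 3 := Dvd.intro_left (M / q) rfl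
  exact nodeHyp_congr e _ h' A m
    (Fermat.Agent.GB.A4.Main.nodeHyp h' hqN hA (fun _ => hd3) (fun e3 => absurd e3 hq3)
      (Fermat.Agent.GL.AuxPrime.nuTwo_eq_zero_of_dvd Nat.prime_three (by norm_num) hd3) hν3 m)

/-- **(A4) at `m = 3`, every level `M` prime to `3`** (`q ∥ M`, `A ∣ q`; `q = 2` allowed):
for an `I_A`-fixed `3`-divisible unit of `F_M` which is a unit for both Gauss valuations, both
reductions are `3`-divisible units of the residue function field.  Side condition:
`nuThree (M/q·3) = 0`. -/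
theorem nodeHyp_three (h : ExactDvd q M) (h3 : ¬ 3 ∣ M) {A : ValuationSubring Kb}
    (hA : A.LiesOverPrime q) (hν3 : nuThree (M / q * 3) = 0) : NodeHyp h A 3 :=
  nodeHyp_descent h (ResDeg3.exactDvd_mul_three h h3) (placeDesc_three h h3 hA)
    (nodeHyp_mul_three h h3 hA hν3 3)

end Final

section Spelling

/-- **`nodeHyp_three` in the spelling `M = N'·q` of `CaseASide.fpAt_side`** -/
theorem nodeHyp_three_mul {N' q : ℕ} [NeZero N'] [Fact q.Prime] (h : ExactDvd q (N' * q))
    (h3 : ¬ 3 ∣ N' * q) {A : ValuationSubring Kb} (hA : A.LiesOverPrime q)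
    (hν3 : nuThree (N' * 3) = 0) : NodeHyp h A 3 := by
  have hq : q.Prime := Fact.out
  haveI : NeZero q := ⟨hq.ne_zero⟩
  refine nodeHyp_three h h3 hA ?_
  rw [Nat.mul_div_cancel _ hq.pos]
  exact hν3

/-- **with an auxiliary prime** `r ≡ 2 (mod 3)` dividing `N'` (e.g. `r ≡ 11 (mod 12)`) -/
theorem nodeHyp_three_of_aux {N' q : ℕ} [NeZero N'] [Fact q.Prime] (h : ExactDvd q (N' * q))
    (h3 : ¬ 3 ∣ N' * q) {A : ValuationSubring Kb} (hA : A.LiesOverPrime q)
    {r : ℕ} (hr : r.Prime) (hr3 : r % 3 = 2) (hrN : r ∣ N') : NodeHyp h A 3 :=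
  nodeHyp_three_mul h h3 hA
    (Fermat.Agent.GL.AuxPrime.nuThree_eq_zero_of_dvd hr hr3 (Dvd.dvd.mul_right hrN 3))

end Spelling

end Fermat.Agent.GE8.LLQ.Aux3.Node3
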