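/-
GATE-E / E8.3 LLQ, RISK-2 (the `(2,3)` circle, helper96 board 7255, RULING A9 7259): **the AUX-3
descent closed, BINDER-FREE** (helper86) — helper96's A4 half (`Aux3/{PlaceDvd,ResDeg3,Node3}`)
plugged into `Aux3/CaseA3` (A5 half + tops).

* `placeDesc_three_odd` : helper96's `Node3.placeDesc_three` for every odd prime `m` (the degree
                          `ψ(3) = 4` is prime to `m`);
* `nodeHyp3Stmt`        : the A4 half, `CaseA3.NodeHyp3Stmt`;
* **`caseA38_two`**     : CASE A at `q = 2`, every odd `p`, every squarefree level — NO frame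
                          condition;
* **`lower_two`**       : `ρ̄` unramified at `2`, `2 ∣ M` squarefree ⟹ level `M / 2` (every odd `p`,
                          in particular `p = 3`, `3 ∤ M`: the `(2,3)` circle is cut);
* `not_isUnramifiedAt_two_of_minimal` : at a minimal level `ρ̄` is ramified at `2`;
* **`hSgSupply_three`** : `HSgSupply 3` — the CASE A half of S38 at `p = 3`, binder-free
                          (`S38Min.LLPThreeStmt` is no longer needed);
* **`s38At_three`**     : `CaseB38minE 3 → S38At 3`.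
-/
import Mathlib
import Fermat.Agent.GE8.LLQ.Aux3.Node3
import Fermat.Agent.GE8.LLQ.Aux3.CaseA3

set_option autoImplicit false
set_option linter.unusedSectionVars false
set_option linter.unusedVariables false
set_option linter.style.haveILetI false

noncomputable section

open WeierstrassCurve WeierstrassCurve.Affine WeierstrassCurve.Affine.Point
open scoped WeierstrassCurve.Affine

namespace Fermat.Agent.GE8.LLQ.Aux3.Final

open ModularCurve IsLocalRing AlgebraicCurve HahnSeries
open Fermat.Agent.S24 Fermat.Agent.GJ.J1 Fermat.Agent.GJ.J1.Val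
open Fermat.Agent.GJ.KumGroup Fermat.Agent.GJ.Kum.KumType
open Fermat.Agent.GK.UqKronecker Fermat.Agent.GK.AL Fermat.Agent.GK.SS
open Fermat.Agent.GB.A.FP Fermat.Agent.GB.A.Desc
open Fermat.Agent.GB.Top.S43Frey
open Fermat.Agent.GE8.LLQ.S38Min

/-- **place-divisibility by an odd prime `m` descends along `FresBar M A ⊆ FresBar (M·3) A`**
(`q ∥ M`, `A ∣ q`, `3 ∤ M`): the extension is finite separable of degree `4`. -/
theorem placeDesc_three_odd {M q : ℕ} [NeZero M] (h : ExactDvd q M) (h3 : ¬ 3 ∣ M)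
    {A : ValuationSubring Kb} (hA : A.LiesOverPrime q) {m : ℕ} (hm : m.Prime) (hm2 : m ≠ 2) :
    PlaceDesc M 3 A m := by
  intro x x' hxx' hx' Q
  have hle : FresBar M A ≤ FresBar (M * 3) A := FresBar_le_level M 3 A
  refine Node3.dvd_ord_of_inclAlgebra_of_not_dvd hle
    (ResDeg3.finiteDimensional_FresBar_mul_three A h hA h3 hle)
    (ResDeg3.isSeparable_FresBar_mul_three A h hA hle) m hm ?_ x x' hxx' hx' Q
  rw [ResDeg3.finrank_FresBar_mul_three A h hA h3 hle]
  intro hd
  have h4 : m ∣ 2 ^ 2 := by norm_num; exact hd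
  exact hm2 ((Nat.prime_dvd_prime_iff_eq hm Nat.prime_two).1 (hm.dvd_of_dvd_pow h4))

/-- **the A4 half of the AUX-3 descent** (helper96), in the statement form of `CaseA3`. -/
theorem nodeHyp3Stmt : CaseA3.NodeHyp3Stmt := by
  intro N' _ h A hA h3 hν2 hν3 m hm hm2
  have h3M : ¬ 3 ∣ N' * 2 := fun hd =>
    h3 ((Nat.Coprime.dvd_of_dvd_mul_right (by norm_num : Nat.Coprime 3 2)) hd)
  have hν3' : nuThree (N' * 2 / 2 * 3) = 0 := by
    rw [Nat.mul_div_cancel _ (by norm_num : 0 < 2)]
    exact hν3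
  exact nodeHyp_descent h (ResDeg3.exactDvd_mul_three h h3M) (placeDesc_three_odd h h3M hA hm hm2)
    (Node3.nodeHyp_mul_three h h3M hA hν3' m)

section Main

variable (p : ℕ) [Fact p.Prime] (hp2 : p ≠ 2) (W : WeierstrassCurve ℤ) (hΔ : W.Δ ≠ 0)
  (hW : W.IsSemistableModel)
  (hcard₁ : Nat.card (Submodule.torsionBy ℤ
    ((W.map (Int.castRingHom ℚ))⁄(AlgebraicClosure ℚ)).Point p) = p ^ 2)
  (hker : GaloisFactorsThroughFiniteLevel
    (WeierstrassCurve.Affine.Point.galoisRepModuleEnd (K := AlgebraicClosure ℚ) ℚ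
      (W.map (Int.castRingHom ℚ)) p))
  (hirr : W.ModRepIsIrreducible p)

include hp2 hΔ hW hirr in
/-- **CASE A at `q = 2`, every odd `p`, every squarefree level, NO frame condition.** -/
theorem caseA38_two (M : ℕ) (h2M : 2 ∣ M) (hMsq : Squarefree M)
    (hunr : ((W.map (Int.castRingHom ℚ)).residualGaloisRepOf p hcard₁ hker).IsUnramifiedAt 2)
    (hres : W.IsResiduallyModularOfLevel p M)
    (hnot : ¬ W.IsResiduallyModularOfLevel p (M / 2)) :
    2 % p = 1 ∧ ScalarFrob38 W p 2 :=
  CaseA3.caseA38_two nodeHyp3Stmt p hp2 W hΔ hW hcard₁ hker hirr M h2M hMsq hunr hres hnot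

include hp2 hΔ hW hirr in
/-- **Mazur's principle at `q = 2`, no condition at all**, every odd `p` (at `p = 3`, `3 ∤ M`: the
`(2,3)` circle is cut). -/
theorem lower_two (M : ℕ) (h2M : 2 ∣ M) (hMsq : Squarefree M)
    (hunr : ((W.map (Int.castRingHom ℚ)).residualGaloisRepOf p hcard₁ hker).IsUnramifiedAt 2)
    (hres : W.IsResiduallyModularOfLevel p M) :
    W.IsResiduallyModularOfLevel p (M / 2) :=
  CaseA3.lower_two nodeHyp3Stmt p hp2 W hΔ hW hcard₁ hker hirr M h2M hMsq hunr hres

include hp2 hΔ hW hirr in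
/-- **at a minimal level `ρ̄` is ramified at `2`**, every odd `p`. -/
theorem not_isUnramifiedAt_two_of_minimal (M : ℕ) (hMsq : Squarefree M) (h2M : 2 ∣ M)
    (hres : W.IsResiduallyModularOfLevel p M)
    (hmin : ∀ m : ℕ, m ∣ M → m ≠ M → ¬ W.IsResiduallyModularOfLevel p m) :
    ¬ ((W.map (Int.castRingHom ℚ)).residualGaloisRepOf p hcard₁ hker).IsUnramifiedAt 2 :=
  CaseA3.not_isUnramifiedAt_two_of_minimal nodeHyp3Stmt p hp2 W hΔ hW hcard₁ hker hirr M hMsq h2M
    hres hmin

end Main

/-- **the CASE A half of the frozen S38 at `p = 3`, binder-free.** -/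
theorem hSgSupply_three : HSgSupply 3 :=
  CaseA3.hSgSupply_three nodeHyp3Stmt

/-- **the frozen S38 at `p = 3` for general semistable `W`, ALL `q ≠ 3` incl. `q = 2`, reduced to
CASE B at a minimal level** — the `p = 3` twin of `S38Min.s38At_five_le`; no E8.4 input. -/
theorem s38At_three (hB : CaseB38minE 3) : S38At 3 :=
  CaseA3.s38At_three nodeHyp3Stmt hB

end Fermat.Agent.GE8.LLQ.Aux3.Final
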