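/-
GATE-E / E8.3 LLQ, RISK-2 (the `(2,3)` circle), consumer forms (helper86): **"add `2` to the level,
work at the even level, strip `2` afterwards"** as ready-made combinators on top of
`Aux3/Final.lower_two` (Mazur's principle at `q = 2`, NO frame condition, every odd `p`).

Every GF/GS frame at residue characteristic `3` carries `p = 3 → 2 ∣ M'` (tame chart `t₂`), so
E8.4 at `p = 3` (and the `p`-new branch of CASE B, audit 6754 [R4]) exist at EVEN levels only.  With
`lower_two` the `2` can be taken out again at ANY squarefree level (also prime to `3`), so a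
statement proved at even levels holds at all levels:

* `strip_two`             : level `L·2`, `ρ̄` unramified at `2` ⟹ level `L`;
* `strip_two_of_resMod`   : the same, unramifiedness read off a second level `L₀` prime to `2`;
* **`lower_p_of_even`**   : E8.4-shape at `p` — "level `L·p` ⟹ level `L`" for all EVEN squarefree `L`
                            prime to `p` implies the same for ALL squarefree `L` prime to `p`.
-/
import Mathlib
import Fermat.Agent.GE8.LLQ.Aux3.Final

set_option autoImplicit false
set_option linter.unusedSectionVars false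
set_option linter.unusedVariables false

noncomputable section

open WeierstrassCurve WeierstrassCurve.Affine WeierstrassCurve.Affine.Point
open scoped WeierstrassCurve.Affine

namespace Fermat.Agent.GE8.LLQ.Aux3.Strip2

open Fermat.Agent.GE8.LLQ.AuxJuggle

variable (p : ℕ) [Fact p.Prime] (hp2 : p ≠ 2) (W : WeierstrassCurve ℤ) (hΔ : W.Δ ≠ 0)
  (hW : W.IsSemistableModel)
  (hcard₁ : Nat.card (Submodule.torsionBy ℤ
    ((W.map (Int.castRingHom ℚ))⁄(AlgebraicClosure ℚ)).Point p) = p ^ 2)
  (hker : GaloisFactorsThroughFiniteLevel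
    (WeierstrassCurve.Affine.Point.galoisRepModuleEnd (K := AlgebraicClosure ℚ) ℚ
      (W.map (Int.castRingHom ℚ)) p))
  (hirr : W.ModRepIsIrreducible p)

include hp2 hΔ hW hirr in
/-- **strip `2`**: level `L·2` squarefree, `ρ̄` unramified at `2` ⟹ level `L`. -/
theorem strip_two (L : ℕ) (hsq : Squarefree (L * 2))
    (hunr : ((W.map (Int.castRingHom ℚ)).residualGaloisRepOf p hcard₁ hker).IsUnramifiedAt 2)
    (hres : W.IsResiduallyModularOfLevel p (L * 2)) :
    W.IsResiduallyModularOfLevel p L := by
  have h := Fermat.Agent.GE8.LLQ.Aux3.Final.lower_two p hp2 W hΔ hW hcard₁ hker hirr (L * 2)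
    (Dvd.intro_left L rfl) hsq hunr hres
  rwa [Nat.mul_div_cancel _ (by norm_num : 0 < 2)] at h

include hp2 hΔ hW hirr hcard₁ hker in
/-- **strip `2`**, the unramifiedness at `2` read off a level `L₀` prime to `2`. -/
theorem strip_two_of_resMod (L L₀ : ℕ) (hsq : Squarefree (L * 2)) (hL₀ : L₀ ≠ 0)
    (h2L₀ : ¬ 2 ∣ L₀) (hres₀ : W.IsResiduallyModularOfLevel p L₀)
    (hres : W.IsResiduallyModularOfLevel p (L * 2)) :
    W.IsResiduallyModularOfLevel p L := by
  have hp : p.Prime := Fact.out
  have hunr : ((W.map (Int.castRingHom ℚ)).residualGaloisRepOf p hcard₁ hker).IsUnramifiedAt 2 := by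
    refine Fermat.Agent.GE8.LLQ.MinLevel.isUnramifiedAt_of_resMod p hp2 W hΔ hcard₁ hker hirr hL₀
      hres₀ Nat.prime_two ?_
    intro hd
    rcases (Nat.Prime.dvd_mul Nat.prime_two).1 hd with h | h
    · exact h2L₀ h
    · exact hp2 ((Nat.prime_dvd_prime_iff_eq Nat.prime_two hp).1 h).symm
  exact strip_two p hp2 W hΔ hW hcard₁ hker hirr L hsq hunr hres

include hp2 hΔ hW hirr hcard₁ hker in
/-- **E8.4-shape: even levels suffice.**  If "level `L·p` ⟹ level `L`" holds for every EVEN
squarefree `L` prime to `p`, it holds for every squarefree `L` prime to `p`: add `2`, lower `p` at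
the even level, strip `2` (`ρ̄` is unramified at `2` because `L·p` is odd). -/
theorem lower_p_of_even
    (hEven : ∀ L : ℕ, 2 ∣ L → ¬ p ∣ L → Squarefree L →
      W.IsResiduallyModularOfLevel p (L * p) → W.IsResiduallyModularOfLevel p L)
    (L : ℕ) (hLsq : Squarefree L) (hpL : ¬ p ∣ L)
    (hres : W.IsResiduallyModularOfLevel p (L * p)) :
    W.IsResiduallyModularOfLevel p L := by
  have hp : p.Prime := Fact.out
  by_cases h2L : 2 ∣ L
  · exact hEven L h2L hpL hLsq hres
  · have hsq2 : Squarefree (L * 2) := squarefree_mul_prime hLsq Nat.prime_two h2L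
    have hpL2 : ¬ p ∣ L * 2 := fun hd => by
      rcases (Nat.Prime.dvd_mul hp).1 hd with h | h
      · exact hpL h
      · exact hp2 ((Nat.prime_dvd_prime_iff_eq hp Nat.prime_two).1 h)
    have hLp0 : L * p ≠ 0 := mul_ne_zero hLsq.ne_zero hp.ne_zero
    have hres2 : W.IsResiduallyModularOfLevel p (L * 2 * p) :=
      Fermat.Agent.GB.Top.SplitT.isResiduallyModularOfLevel_of_dvd hres
        ⟨2, by ring⟩ (mul_ne_zero hsq2.ne_zero hp.ne_zero)
    have hlow := hEven (L * 2) (Dvd.intro_left L rfl) hpL2 hsq2 hres2
    have h2Lp : ¬ 2 ∣ L * p := fun hd => by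
      rcases (Nat.Prime.dvd_mul Nat.prime_two).1 hd with h | h
      · exact h2L h
      · exact hp2 ((Nat.prime_dvd_prime_iff_eq Nat.prime_two hp).1 h).symm
    exact strip_two_of_resMod p hp2 W hΔ hW hcard₁ hker hirr L (L * p) hsq2 hLp0 h2Lp hres hlow

end Fermat.Agent.GE8.LLQ.Aux3.Strip2
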