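/-
GATE-E / E8.4 LLP, slice (e) of helper17's table (board 7270) + RISK-2 (helper86): **remove
"rigid" and "even" from an E8.4-shape statement** — level juggling only.

The GATE-F chain at `p ∈ {3, 5}` for general `W` lowers `p` at levels `N'·p` with `N'` RIGID
(`nuTwo N' = nuThree N' = 0`, e.g. an auxiliary prime `r ≡ 11 (mod 12)` in `N'`) and, at `p = 3`,
EVEN (`p = 3 → 2 ∣ N'`: every frame at residue characteristic `3` lives on the tame chart `t₂`).
Both conditions are removed here, per `W`: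

* add `r` (old forms), lower `p` at `L·r`, take `r` out by E8.3b
  (`Final.auxSupply` = helper90's chooser + helper10's remover);
* at `p = 3`, `L` odd: add `2`, lower `p` at `L·2`, strip `2` by Mazur's principle at `q = 2`
  WITHOUT frame condition (`Aux3/Final.lower_two` = the AUX-3 descent; `Strip2.lower_p_of_even`).

* `lower_p_of_rigid_side` : the first step, `L` with `p = 3 → 2 ∣ L`;
* **`lower_p_of_rigid`**  : "level `N'·p` ⟹ level `N'`" for all RIGID squarefree `N'` prime to `p`
                            (even if `p = 3`) implies "level `L·p` ⟹ level `L`" for ALL squarefree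
                            `L` prime to `p`.
-/
import Mathlib
import Fermat.Agent.GE8.LLQ.Aux3.Strip2

set_option autoImplicit false
set_option linter.unusedSectionVars false
set_option linter.unusedVariables false

noncomputable section

open WeierstrassCurve WeierstrassCurve.Affine WeierstrassCurve.Affine.Point
open scoped WeierstrassCurve.Affine

namespace Fermat.Agent.GE8.LLQ.Aux3.DeRigid

open ModularCurve
open Fermat.Agent.GE8.LLQ.AuxJuggle

variable (p : ℕ) [Fact p.Prime] (hp2 : p ≠ 2) (W : WeierstrassCurve ℤ) (hΔ : W.Δ ≠ 0)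
  (hW : W.IsSemistableModel)
  (hcard₁ : Nat.card (Submodule.torsionBy ℤ
    ((W.map (Int.castRingHom ℚ))⁄(AlgebraicClosure ℚ)).Point p) = p ^ 2)
  (hker : GaloisFactorsThroughFiniteLevel
    (WeierstrassCurve.Affine.Point.galoisRepModuleEnd (K := AlgebraicClosure ℚ) ℚ
      (W.map (Int.castRingHom ℚ)) p))
  (hirr : W.ModRepIsIrreducible p)

include hp2 hΔ hW hirr in
/-- **remove "rigid"**: at a level `L` carrying the frame condition `p = 3 → 2 ∣ L`. -/
theorem lower_p_of_rigid_side
    (hRig : ∀ N' : ℕ, nuTwo N' = 0 → nuThree N' = 0 → (p = 3 → 2 ∣ N') → ¬ p ∣ N' →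
      Squarefree N' → W.IsResiduallyModularOfLevel p (N' * p) →
      W.IsResiduallyModularOfLevel p N')
    (L : ℕ) (hLsq : Squarefree L) (hpL : ¬ p ∣ L) (hside : p = 3 → 2 ∣ L)
    (hres : W.IsResiduallyModularOfLevel p (L * p)) :
    W.IsResiduallyModularOfLevel p L := by
  have hp : p.Prime := Fact.out
  have hLp0 : L * p ≠ 0 := mul_ne_zero hLsq.ne_zero hp.ne_zero
  obtain ⟨r, hr, hrLp, hr12, hrem⟩ :=
    Fermat.Agent.GE8.LLQ.Final.auxSupply W hW hΔ p hp2 hirr (L * p) hLp0
  have hrL : ¬ r ∣ L := fun hd => hrLp (hd.mul_right p)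
  have hrp : r ≠ p := fun e => hrLp (e ▸ Dvd.intro_left L rfl)
  have hsq : Squarefree (L * r) := squarefree_mul_prime hLsq hr hrL
  have hpLr : ¬ p ∣ L * r := fun hd => by
    rcases (Nat.Prime.dvd_mul hp).1 hd with h | h
    · exact hpL h
    · exact hrp ((Nat.prime_dvd_prime_iff_eq hp hr).1 h).symm
  have hres' : W.IsResiduallyModularOfLevel p (L * r * p) :=
    Fermat.Agent.GB.Top.SplitT.isResiduallyModularOfLevel_of_dvd hres ⟨r, by ring⟩
      (mul_ne_zero hsq.ne_zero hp.ne_zero)
  have hlow := hRig (L * r)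
    (Fermat.Agent.GL.AuxPrime.nuTwo_eq_zero_of_dvd hr
      (Fermat.Agent.GL.AuxPrime.mod_four_of_mod_twelve hr12) (Dvd.intro_left L rfl))
    (Fermat.Agent.GL.AuxPrime.nuThree_eq_zero_of_dvd hr
      (Fermat.Agent.GL.AuxPrime.mod_three_of_mod_twelve hr12) (Dvd.intro_left L rfl))
    (fun e => (hside e).mul_right r) hpLr hsq hres'
  exact hrem L hsq hlow

include hp2 hΔ hW hirr hcard₁ hker in
/-- **remove "rigid" and "even"** from an E8.4-shape statement (per `W`): if `p` can be lowered at
every RIGID squarefree level `N'·p` (`N'` even when `p = 3`), it can be lowered at EVERY squarefree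
level `L·p`, `p ∤ L`. -/
theorem lower_p_of_rigid
    (hRig : ∀ N' : ℕ, nuTwo N' = 0 → nuThree N' = 0 → (p = 3 → 2 ∣ N') → ¬ p ∣ N' →
      Squarefree N' → W.IsResiduallyModularOfLevel p (N' * p) →
      W.IsResiduallyModularOfLevel p N')
    (L : ℕ) (hLsq : Squarefree L) (hpL : ¬ p ∣ L)
    (hres : W.IsResiduallyModularOfLevel p (L * p)) :
    W.IsResiduallyModularOfLevel p L :=
  Fermat.Agent.GE8.LLQ.Aux3.Strip2.lower_p_of_even p hp2 W hΔ hW hcard₁ hker hirr
    (fun L' h2 hpL' hsq' hres' =>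
      lower_p_of_rigid_side p hp2 W hΔ hW hirr hRig L' hsq' hpL' (fun _ => h2) hres')
    L hLsq hpL hres

include hp2 hΔ hW hirr hcard₁ hker in
/-- the same in the `M / p` spelling of the descent (`GE8/Top/DescentAbs.exists_min_not_dvd`,
callback `∀ M, Squarefree M → p ∣ M → R M → R (M / p)`). -/
theorem lower_p_of_rigid_div
    (hRig : ∀ N' : ℕ, nuTwo N' = 0 → nuThree N' = 0 → (p = 3 → 2 ∣ N') → ¬ p ∣ N' →
      Squarefree N' → W.IsResiduallyModularOfLevel p (N' * p) →
      W.IsResiduallyModularOfLevel p N')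
    (M : ℕ) (hMsq : Squarefree M) (hpM : p ∣ M)
    (hres : W.IsResiduallyModularOfLevel p M) :
    W.IsResiduallyModularOfLevel p (M / p) := by
  have hp : p.Prime := Fact.out
  obtain ⟨L, rfl⟩ : ∃ L, M = L * p := ⟨M / p, (Nat.div_mul_cancel hpM).symm⟩
  rw [Nat.mul_div_cancel _ hp.pos]
  have hLsq : Squarefree L := hMsq.squarefree_of_dvd (Dvd.intro p rfl)
  have hpL : ¬ p ∣ L := fun hd => by
    have h1 := hMsq p (Nat.mul_dvd_mul hd (dvd_refl p))
    exact hp.one_lt.ne' (Nat.isUnit_iff.1 h1)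
  exact lower_p_of_rigid p hp2 W hΔ hW hcard₁ hker hirr hRig L hLsq hpL hres

end Fermat.Agent.GE8.LLQ.Aux3.DeRigid
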