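/-
GATE-E / E8 TOP plug (helper86): **node `LLQStmt p` of helper20's `GE8/Top/MinLevel` for EVERY odd
prime `p` from CASE B at a minimal level only** — the `p = 3` case no longer needs
`S38Min.LLPThreeStmt` (`Aux3/Final.s38At_three`, the AUX-3 descent).

* `llqStmt_three`  : `CaseB38minE 3 → LLQStmt 3`;
* `llqStmt_of_caseB` : `p ≠ 2 → CaseB38minE p → LLQStmt p`.
-/
import Mathlib
import Fermat.Agent.GE8.Top.MinLevelPlugLLQ
import Fermat.Agent.GE8.LLQ.Aux3.Final

set_option autoImplicit false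

open WeierstrassCurve

namespace Fermat.Agent.GE8.LLQ.Aux3.PlugTop

open Fermat.Agent.GE8.Top.MinLevel Fermat.Agent.GE8.Top.MinLevelPlugLLQ
open Fermat.Agent.GE8.LLQ.S38Min

/-- **node LLQ at `p = 3` from CASE B at a minimal level** (no E8.4 input). -/
theorem llqStmt_three (hB : CaseB38minE 3) : LLQStmt 3 :=
  llqStmt_of_s38At (by decide) (Fermat.Agent.GE8.LLQ.Aux3.Final.s38At_three hB)

/-- **node LLQ at every odd prime `p` from CASE B at a minimal level.** -/
theorem llqStmt_of_caseB {p : ℕ} [hpF : Fact p.Prime] (hp2 : p ≠ 2) (hB : CaseB38minE p) :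
    LLQStmt p := by
  have hp : p.Prime := hpF.out
  by_cases hp3 : p = 3
  · subst hp3
    exact llqStmt_three hB
  · have h5 : 5 ≤ p := five_le_of_prime hp hp2 hp3
    exact llqStmt_five_le h5 hB

end Fermat.Agent.GE8.LLQ.Aux3.PlugTop
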