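/-
GATE-E / E8 TOP seam (helper86): **the descent of `ρ̄_{W,p}` to a minimal level PRIME TO `p` from
the inputs AS THE SUB-GATES DELIVER THEM** — helper20's `GE8/Top/DescentSide.exists_min_not_dvd_side`
fed with

* node SQ with side conditions      : `GE8/SQ/AuxPlug.SQSideStmt`            (sub-gate SQ);
* node LLQ                          : `CaseB38minE p` only                    (sub-gate LLQ; CASE A and
                                      the `(2,3)` circle are closed: `Aux3/PlugTop.llqStmt_of_caseB`);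
* node LLP, PER `W`, at RIGID levels: `level N'·p ⟹ level N'` for squarefree `N'` prime to `p` with
                                      `nuTwo N' = nuThree N' = 0` and `p = 3 → 2 ∣ N'`
                                      (sub-gates ORD / TORP; `Aux3/DeRigid.lower_p_of_rigid_div`
                                      removes "rigid" and "even").

`GE8/Top/MinLevelSide.exists_minLevel_{FL,peu}_side` ask for the frozen S40/S39 shapes at ALL levels
`M` (`LLPGoodStmt p`, `LLPPeuStmt p`); the descent only ever calls them at SQUAREFREE `M`, and E8.4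
is delivered at rigid squarefree levels.  This file is the same descent with that weaker input.

* **`exists_minLevel_of_rigid`** : `M ∣ M₀` squarefree, `p ∤ M`, residually modular, every prime of
                                   `M` ramified in `ρ̄`.
-/
import Mathlib
import Fermat.Agent.GE8.Top.MinLevelSide
import Fermat.Agent.GE8.LLQ.Aux3.PlugTop
import Fermat.Agent.GE8.LLQ.Aux3.DeRigid

set_option autoImplicit false
set_option linter.unusedSectionVars false
set_option linter.unusedVariables false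

open WeierstrassCurve WeierstrassCurve.Affine WeierstrassCurve.Affine.Point

namespace Fermat.Agent.GE8.LLQ.Aux3.MinLevelRig

open ModularCurve
open Fermat.Agent.GE8.Top.DescentAbs Fermat.Agent.GE8.Top.DescentSide
  Fermat.Agent.GE8.Top.MinLevel Fermat.Agent.GE8.Top.MinLevelSide Fermat.Agent.GE8.SQ.AuxPlug
open Fermat.Agent.GE8.LLQ.S38Min

variable {p : ℕ} [hpF : Fact p.Prime] (hp2 : p ≠ 2) (W : WeierstrassCurve ℤ) (hΔ : W.Δ ≠ 0)
  (hW : W.IsSemistableModel) (hirr : W.ModRepIsIrreducible p)
  (hcard₁ : Nat.card (Submodule.torsionBy ℤ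
    ((W.map (Int.castRingHom ℚ))⁄(AlgebraicClosure ℚ)).Point p) = p ^ 2)
  (hker : GaloisFactorsThroughFiniteLevel
    (WeierstrassCurve.Affine.Point.galoisRepModuleEnd (K := AlgebraicClosure ℚ) ℚ
      (W.map (Int.castRingHom ℚ)) p))

include hp2 hΔ hW hirr in
/-- **the descent to a minimal level prime to `p`** from SQ (side conditions), CASE B at a minimal
level, and E8.4 for THIS `W` at rigid squarefree levels (even if `p = 3`). -/
theorem exists_minLevel_of_rigid (hSQ : SQSideStmt) (hB : CaseB38minE p)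
    (hRig : ∀ N' : ℕ, nuTwo N' = 0 → nuThree N' = 0 → (p = 3 → 2 ∣ N') → ¬ p ∣ N' →
      Squarefree N' → W.IsResiduallyModularOfLevel p (N' * p) →
      W.IsResiduallyModularOfLevel p N')
    (M₀ : ℕ) (hM₀ : M₀ ≠ 0) (hres₀ : W.IsResiduallyModularOfLevel p M₀) (hp2M : ¬ p ^ 2 ∣ M₀)
    (hcube : ∀ q : ℕ, q.Prime → q ≠ p → ¬ q ^ 3 ∣ M₀) :
    ∃ M : ℕ, M ∣ M₀ ∧ Squarefree M ∧ ¬ p ∣ M ∧ W.IsResiduallyModularOfLevel p M ∧
      ∀ q : ℕ, q.Prime → q ≠ p → q ∣ M →
        ¬ ((W.map (Int.castRingHom ℚ)).residualGaloisRepOf p hcard₁ hker).IsUnramifiedAt q :=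
  exists_min_not_dvd_side hpF.out (fun M => W.IsResiduallyModularOfLevel p M)
    (fun q => ((W.map (Int.castRingHom ℚ)).residualGaloisRepOf p hcard₁ hker).IsUnramifiedAt q)
    (fun _ _ h hd h0 => Fermat.Agent.GB.Top.SplitT.isResiduallyModularOfLevel_of_dvd h hd h0)
    (fun M r hM h hr hrp hrM => unr_of_level hp2 W hΔ hirr hcard₁ hker M r hM h hr hrp hrM)
    (sq_side hp2 W hΔ hW hirr hSQ)
    (fun M q hM hq hqp hqM hU h =>
      Fermat.Agent.GE8.LLQ.Aux3.PlugTop.llqStmt_of_caseB hp2 hB W hΔ hW hcard₁ hker hirr M q hq hqp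
        hqM (not_sq_dvd_of_squarefree hM hq) hM hU h)
    (fun M hM hpM h =>
      Fermat.Agent.GE8.LLQ.Aux3.DeRigid.lower_p_of_rigid_div p hp2 W hΔ hW hcard₁ hker hirr hRig M
        hM hpM h)
    M₀ hM₀ hp2M hcube hres₀

end Fermat.Agent.GE8.LLQ.Aux3.MinLevelRig
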