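/-
GATE-E / RISK-2 (the (2,3) circle at p = 3), A4 half (helper96), file 4: **`FP.NodeHyp h A m` for
EVERY ODD `m`** at every level `M` prime to `3` (`q ∥ M`, `A ∣ q`, `q = 2` allowed) — the spelling
`NodeHyp3Stmt` asked for by helper86 (board 7292).

`Aux3/Node3` gives `m = 3`.  For `m` odd the same descent works: above every place `v` of
`FresBar M A` there is a place `w` of `FresBar (M·3) A` with `3 ∤ e(w | v)` (`Σ e f = 4`), and
`e(w | v) ≤ 4`, so `e ∈ {1, 2, 4}` is prime to every odd `m`.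

* `exists_place_above_coprime_of_finrank_four` : the place `w`;
* `dvd_ord_of_finrank_four`                    : descent of `m ∣ ord`, `m` odd, degree `4`;
* `placeDesc_three_odd`  : `PlaceDesc M 3 A m`, `m` odd;
* `nodeHyp_odd`          : `NodeHyp h A m`, `m` odd (general `M`);
* `nodeHyp3_two`         : helper86's `NodeHyp3Stmt` VERBATIM (as a theorem, binders expanded).
-/
import Fermat.Agent.GE8.LLQ.Aux3.Node3
import Fermat.Agent.GB.A.Desc.PlaceExt

set_option autoImplicit false
set_option linter.style.haveILetI false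
set_option linter.unusedSectionVars false

noncomputable section

namespace Fermat.Agent.GE8.LLQ.Aux3.Node3Odd

open ModularCurve IsLocalRing AlgebraicCurve HahnSeries
open Fermat.Agent.S24 Fermat.Agent.GJ.J1 Fermat.Agent.GJ.J1.Val
open Fermat.Agent.GJ.KumGroup Fermat.Agent.GJ.Kum.KumType
open Fermat.Agent.GK.UqKronecker Fermat.Agent.GK.AL Fermat.Agent.GK.SS
open Fermat.Agent.GB.A.FP Fermat.Agent.GB.A.Desc

/-! ### generic: degree `4`, `m` odd -/

section Gen4

variable {K F F' : Type*} [Field K] [Field F] [Field F'] [Algebra K F] [Algebra K F']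
  [Algebra F F'] [IsScalarTower K F F'] [FiniteDimensional F F'] [Algebra.IsSeparable F F']

/-- `e ≤ 4`, `3 ∤ e`, `0 < e`, `m` odd ⟹ `gcd (e, m) = 1` -/
theorem coprime_of_le_four_of_not_three_dvd {e m : ℕ} (he0 : 0 < e) (he4 : e ≤ 4) (h3 : ¬ 3 ∣ e)
    (hm : Odd m) : Nat.Coprime e m := by
  have h2 : Nat.Coprime 2 m := Nat.coprime_two_left.mpr hm
  have hcases : e = 1 ∨ e = 2 ∨ e = 4 := by
    rcases (by omega : e = 1 ∨ e = 2 ∨ e = 3 ∨ e = 4) with h | h | h | h
    · exact Or.inl h
    · exact Or.inr (Or.inl h)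
    · exact absurd (by rw [h]) h3
    · exact Or.inr (Or.inr h)
  rcases hcases with rfl | rfl | rfl
  · exact Nat.coprime_one_left m
  · exact h2
  · have : (4 : ℕ) = 2 ^ 2 := by norm_num
    rw [this]
    exact Nat.Coprime.pow_left 2 h2

/-- **a place above `v` with ramification index prime to every odd `m`** (`[F' : F] = 4`) -/
theorem exists_place_above_coprime_of_finrank_four (h4 : Module.finrank F F' = 4)
    (v : Place K F) :
    ∃ w : Place K F', w.restrict F = v ∧ ∀ m : ℕ, Odd m → Nat.Coprime (w.ramificationIndex F) m := by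
  obtain ⟨w, hw, h3w⟩ := PlaceDvd.exists_place_above_not_dvd (K := K) (F := F) (F' := F') 3
    (by rw [h4]; norm_num) v
  refine ⟨w, hw, fun m hm => ?_⟩
  have hle : w.ramificationIndex F ≤ 4 := by
    rw [← h4]
    exact PlaceExt.ramificationIndex_le_finrank w
  exact coprime_of_le_four_of_not_three_dvd (w.ramificationIndex_pos (F := F)) hle h3w hm

/-- **Descent of divisibility of orders, degree `4`, `m` odd.** -/
theorem dvd_ord_of_finrank_four (h4 : Module.finrank F F' = 4) {m : ℕ} (hm : Odd m) (u : F)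
    (hu : ∀ w : Place K F', (m : ℤ) ∣ w.ord (algebraMap F F' u)) (v : Place K F) :
    (m : ℤ) ∣ v.ord u := by
  obtain ⟨w, hw, hcop⟩ := exists_place_above_coprime_of_finrank_four (K := K) (F' := F') h4 v
  have h1 := hu w
  rw [w.ord_restrict, hw] at h1
  have hcop' : IsCoprime (m : ℤ) ((w.ramificationIndex F : ℕ) : ℤ) :=
    (Nat.isCoprime_iff_coprime.mpr (hcop m hm)).symm
  exact hcop'.dvd_of_dvd_mul_left h1

end Gen4

/-! ### inclusion-algebra form -/

section Gen

open IntermediateField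

variable {k E : Type*} [Field k] [Field E] [Algebra k E] {F F' : IntermediateField k E}
  (hle : F ≤ F')

theorem dvd_ord_of_inclAlgebra_of_finrank_four
    (hfin : @FiniteDimensional F F' _ _ (inclAlgebra hle).toModule)
    (hsep : @Algebra.IsSeparable F F' _ _ (inclAlgebra hle))
    (h4 : @Module.finrank F F' _ _ (inclAlgebra hle).toModule = 4) {m : ℕ} (hm : Odd m)
    (x : F) (x' : F') (hxx' : (x' : E) = (x : E))
    (hx' : ∀ w : Place k F', (m : ℤ) ∣ w.ord x') (v : Place k F) : (m : ℤ) ∣ v.ord x := by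
  letI := inclAlgebra hle
  have := inclAlgebra_isScalarTower hle
  have e : x' = algebraMap F F' x := Subtype.ext hxx'
  subst e
  exact dvd_ord_of_finrank_four (K := k) h4 hm x hx' v

end Gen

/-! ### the modular instance -/

section Final

variable {M q : ℕ} [NeZero M]

/-- place-divisibility by an ODD `m` descends along `FresBar M A ⊆ FresBar (M·3) A`
(`q ∥ M`, `A ∣ q`, `3 ∤ M`) -/
theorem placeDesc_three_odd (h : ExactDvd q M) (h3 : ¬ 3 ∣ M) {A : ValuationSubring Kb}
    (hA : A.LiesOverPrime q) {m : ℕ} (hm : Odd m) : PlaceDesc M 3 A m := by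
  intro x x' hxx' hx' Q
  have hle : FresBar M A ≤ FresBar (M * 3) A := FresBar_le_level M 3 A
  exact dvd_ord_of_inclAlgebra_of_finrank_four hle
    (ResDeg3.finiteDimensional_FresBar_mul_three A h hA h3 hle)
    (ResDeg3.isSeparable_FresBar_mul_three A h hA hle)
    (ResDeg3.finrank_FresBar_mul_three A h hA h3 hle) hm x x' hxx' hx' Q

/-- **(A4) for every ODD `m`, every level `M` prime to `3`** (`q ∥ M`, `A ∣ q`; `q = 2` allowed).
Side condition: `nuThree (M/q·3) = 0`. -/
theorem nodeHyp_odd (h : ExactDvd q M) (h3 : ¬ 3 ∣ M) {A : ValuationSubring Kb}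
    (hA : A.LiesOverPrime q) (hν3 : nuThree (M / q * 3) = 0) {m : ℕ} (hm : Odd m) :
    NodeHyp h A m :=
  nodeHyp_descent h (ResDeg3.exactDvd_mul_three h h3) (placeDesc_three_odd h h3 hA hm)
    (Node3.nodeHyp_mul_three h h3 hA hν3 m)

end Final

/-- **helper86's `NodeHyp3Stmt` (board 7292), VERBATIM binders**: level `N'·2`, `A ∣ 2`, `3 ∤ N'`,
`nuTwo (N'·3) = 0` (not used), `nuThree (N'·3) = 0`, `m` odd. -/
theorem nodeHyp3_two :
    ∀ (N' : ℕ) [NeZero N'] (h : ExactDvd 2 (N' * 2)) (A : ValuationSubring Kb)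
      (_ : A.LiesOverPrime 2) (_ : ¬ 3 ∣ N') (_ : nuTwo (N' * 3) = 0)
      (_ : nuThree (N' * 3) = 0) (m : ℕ) (_ : Odd m), Fermat.Agent.GB.A.FP.NodeHyp h A m := by
  intro N' _ h A hA h3N _ hν3 m hm
  have h3 : ¬ 3 ∣ N' * 2 := by
    intro hd
    rcases (Nat.Prime.dvd_mul Nat.prime_three).1 hd with hd | hd
    · exact h3N hd
    · omega
  refine nodeHyp_odd h h3 hA ?_ hm
  rw [Nat.mul_div_cancel _ (by norm_num : 0 < 2)]
  exact hν3

end Fermat.Agent.GE8.LLQ.Aux3.Node3Odd
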