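/-
GATE-E / RISK-2 (the (2,3) circle at p = 3), A4 half (helper96), file 2: **the residue extension
`FresBar M A ⊆ FresBar (M·3) A` has degree exactly `4`** for `q ∥ M`, `A ∣ q`, `3 ∤ M`.

Twin of `GB/A/Desc/ResDeg.relfinrank_FresBar_mul_two_le` (`≤ 3` at the step `M ⊆ M·2`); here the
EXACT value `ψ(3) = 4` is needed, because the descent at `m = 3` uses `3 ∤ 4`
(`Aux3/PlaceDvd.dvd_ord_of_forall_dvd_above_of_not_dvd_finrank`), not a bound on `e`.

* `dedekindPsi_mul_three`   : `ψ(N·3) = 4 ψ(N)` for `3 ∤ N`;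
* `exactDvd_mul_three`      : `q ∥ M`, `3 ∤ M` ⟹ `q ∥ M·3`;
* `FresBar_le_mul_three`    : `FresBar M A ≤ FresBar (M·3) A`;
* `relfinrank_FresBar_mul_three` : `[FresBar (M·3) A : FresBar M A] = 4`;
* `finrank_FresBar_mul_three`, `finiteDimensional_FresBar_mul_three`,
  `isSeparable_FresBar_mul_three` : the same facts for the inclusion algebra structure.
-/
import Mathlib
import Fermat.Agent.GB.A.Desc.ResDeg

set_option autoImplicit false
set_option linter.style.haveILetI false
set_option linter.unusedSectionVars false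

noncomputable section

namespace Fermat.Agent.GE8.LLQ.Aux3.ResDeg3

open IntermediateField IsLocalRing ModularCurve HahnSeries Polynomial
open Fermat.Agent.S24 Fermat.Agent.GJ.J1 Fermat.Agent.GJ.J1.Val Fermat.Agent.GJ.J1.Haupt
open Fermat.Agent.GK.AL
open Fermat.Agent.GB.A.Desc.ResDeg

local notation "Kbar'" => AlgebraicClosure ℚ

/-! ### arithmetic -/

/-- `ψ(3) = 4` -/
theorem dedekindPsi_three : dedekindPsi 3 = 4 := by
  have h1 := Fermat.Agent.S20_helper27.dedekindPsi_prime_pow Nat.prime_three (k := 1) one_pos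
  simpa using h1

/-- **`ψ(N·3) = 4 ψ(N)`** for `3 ∤ N` -/
theorem dedekindPsi_mul_three (N : ℕ) (h3 : ¬ 3 ∣ N) : dedekindPsi (N * 3) = 4 * dedekindPsi N := by
  have hcop : Nat.Coprime N 3 :=
    Nat.Coprime.symm ((Nat.Prime.coprime_iff_not_dvd Nat.prime_three).mpr h3)
  rw [Fermat.Agent.S20_helper27.dedekindPsi_mul hcop, dedekindPsi_three, mul_comm]

/-- a prime dividing a number prime to `3` is not `3` -/
theorem not_dvd_three_of_exactDvd {q M : ℕ} (h : ExactDvd q M) (h3 : ¬ 3 ∣ M) : ¬ q ∣ 3 := by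
  intro hd
  have e : q = 3 := (Nat.prime_dvd_prime_iff_eq h.prime Nat.prime_three).mp hd
  subst e
  exact h3 h.dvd

/-- `q ∥ M`, `3 ∤ M` ⟹ `q ∥ M·3` -/
theorem exactDvd_mul_three {q M : ℕ} (h : ExactDvd q M) (h3 : ¬ 3 ∣ M) : ExactDvd q (M * 3) :=
  exactDvd_mul h (not_dvd_three_of_exactDvd h h3)

/-! ### the degree -/

section Degree

variable (A : ValuationSubring Kbar')

local notation "𝕜" => ResidueField A

variable {q : ℕ}

/-- **`FresBar M A ≤ FresBar (M·3) A`** for `q ∥ M`, `3 ∤ M` -/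
theorem FresBar_le_mul_three {M : ℕ} [NeZero M] [NeZero (M * 3)] (h : ExactDvd q M)
    (hA : A.LiesOverPrime q) (h3 : ¬ 3 ∣ M) : FresBar M A ≤ FresBar (M * 3) A :=
  FresBar_le_mul A h hA (not_dvd_three_of_exactDvd h h3)

/-- **`[FresBar (M·3) A : FresBar M A] = 4`** for `q ∥ M`, `3 ∤ M` -/
theorem relfinrank_FresBar_mul_three {M : ℕ} [NeZero M] [NeZero (M * 3)] (h : ExactDvd q M)
    (hA : A.LiesOverPrime q) (h3 : ¬ 3 ∣ M) :
    relfinrank (FresBar M A) (FresBar (M * 3) A) = 4 := by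
  obtain ⟨N', hN'0, hM, -⟩ := exists_good h
  haveI : NeZero N' := ⟨hN'0⟩
  haveI : NeZero (N' * 3) := ⟨mul_ne_zero hN'0 three_ne_zero⟩
  have h3N : ¬ 3 ∣ N' := fun hd => h3 (by rw [hM]; exact Dvd.dvd.mul_right hd q)
  have h1 := relfinrank_FresBar_of_exactDvd A h hA N' hM
  have h2 := relfinrank_FresBar_of_exactDvd A (exactDvd_mul_three h h3) hA (N' * 3)
    (by rw [hM]; ring)
  have hle1 : 𝕜⟮jqModC 𝕜⟯ ≤ FresBar M A := by
    rw [adjoin_simple_le_iff]
    exact Fermat.Agent.GK.Val.Degrees.jqModC_mem_FresBar M A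
  have hmul := relfinrank_mul_relfinrank hle1 (FresBar_le_mul_three A h hA h3)
  rw [h1, h2, dedekindPsi_mul_three N' h3N] at hmul
  have hψ : 0 < dedekindPsi N' := by
    rw [← Fermat.Agent.S24_helper62.finrank_FN N']
    have := Fermat.Agent.GJ.J1.Val.finiteDimensional_jF N'
    exact Module.finrank_pos
  rw [mul_comm 4] at hmul
  exact Nat.eq_of_mul_eq_mul_left hψ hmul

/-- **degree, `Module.finrank` form** for the inclusion algebra -/
theorem finrank_FresBar_mul_three {M : ℕ} [NeZero M] [NeZero (M * 3)] (h : ExactDvd q M)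
    (hA : A.LiesOverPrime q) (h3 : ¬ 3 ∣ M) (hle : FresBar M A ≤ FresBar (M * 3) A) :
    @Module.finrank (FresBar M A) (FresBar (M * 3) A) _ _
      (inclusion hle).toRingHom.toAlgebra.toModule = 4 := by
  rw [finrank_inclusion_eq_relfinrank]
  exact relfinrank_FresBar_mul_three A h hA h3

/-- **finiteness** for the inclusion algebra -/
theorem finiteDimensional_FresBar_mul_three {M : ℕ} [NeZero M] [NeZero (M * 3)]
    (h : ExactDvd q M) (hA : A.LiesOverPrime q) (h3 : ¬ 3 ∣ M)
    (hle : FresBar M A ≤ FresBar (M * 3) A) :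
    @FiniteDimensional (FresBar M A) (FresBar (M * 3) A) _ _
      (inclusion hle).toRingHom.toAlgebra.toModule :=
  finiteDimensional_inclusion _ _ hle
    (by rw [relfinrank_FresBar_mul_three A h hA h3]; norm_num)

/-- **separability**: `FresBar (M·3) A / FresBar M A` is separable -/
theorem isSeparable_FresBar_mul_three {M : ℕ} [NeZero M] [NeZero (M * 3)] (h : ExactDvd q M)
    (hA : A.LiesOverPrime q) (hle : FresBar M A ≤ FresBar (M * 3) A) :
    @Algebra.IsSeparable (FresBar M A) (FresBar (M * 3) A) _ _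
      (inclusion hle).toRingHom.toAlgebra :=
  isSeparable_FresBar_of_le A M (M * 3) h.prime hA hle

end Degree

end Fermat.Agent.GE8.LLQ.Aux3.ResDeg3
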